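import Mathlib

/-!
# Tower A1 (S48 / RES): the `q`-expansion principle climbs a Galois step (Mathlib-only)

`P ⊆ F₀ ⊆ F'` inside a field `Ω'`, `G` a finite group of automorphisms of `Ω'` fixing `P` and `w`,
preserving `F'` and a subring `V'` (the Gauss valuation ring of `F'`), with `(F')^G ⊆ F₀`.
If the `q`-expansion principle holds for `F₀`
(`c ∈ F₀ ∩ V'`, `c * w ^ j` integral over `P` ⟹ `c` integral over `P`), then it holds for `F'`:
`b ∈ F'` integral over `P`, `b / w ∈ V'` ⟹ `b / w` integral over `P`.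

Proof: `z = b / w` is a root of `∏_{g ∈ G} (X - g z)`, whose coefficients `c_k` are `G`-invariant
elements of `V'`, and `c_k * w ^ (n - k)` is a coefficient of `∏ (X - g b)`, hence integral.
No Krull domains, no going-down, no noetherian hypothesis.
-/

set_option autoImplicit false

namespace Fermat.Agent.S48.H588

open Polynomial

section Integral

variable {R B : Type*} [CommRing R] [CommRing B] [Algebra R B]

/-- A root of a monic polynomial whose coefficients are integral over `R` is integral over `R`. -/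
theorem isIntegral_of_monic_of_coeff_isIntegral (p : B[X]) (hp : p.Monic)
    (hc : ∀ i, IsIntegral R (p.coeff i)) {z : B} (hz : p.eval z = 0) : IsIntegral R z := by
  let A := integralClosure R B
  have hsub : (↑p.coeffs : Set B) ⊆ A.toSubring := by
    intro c hc'
    obtain ⟨i, _, rfl⟩ := Polynomial.mem_coeffs_iff.mp (by exact_mod_cast hc')
    exact hc i
  let p' : A.toSubring[X] := p.toSubring A.toSubring hsub
  have hp' : p'.Monic := (p.monic_toSubring _ _).mpr hp
  have hmap : p'.map (A.toSubring.subtype) = p := p.map_toSubring A.toSubring hsub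
  have hA : IsIntegral A z := by
    refine ⟨p', hp', ?_⟩
    have : eval₂ (algebraMap A B) z p' = (p'.map (A.toSubring.subtype)).eval z := by
      rw [eval_map]; rfl
    rw [this, hmap, hz]
  exact isIntegral_trans (A := A) z hA

end Integral

section Group

variable {Ω' : Type*} [Field Ω']

/-- The orbit polynomial `∏_{g ∈ G} (X - g z)`. -/
noncomputable def orbitPoly (G : Subgroup (Ω' ≃+* Ω')) [Fintype G] (z : Ω') : Ω'[X] :=
  ∏ g : G, (X - C ((g : Ω' ≃+* Ω') z))

variable (G : Subgroup (Ω' ≃+* Ω')) [Fintype G]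

theorem orbitPoly_monic (z : Ω') : (orbitPoly G z).Monic :=
  monic_prod_of_monic _ _ (fun _ _ => monic_X_sub_C _)

theorem orbitPoly_natDegree (z : Ω') : (orbitPoly G z).natDegree = Fintype.card G := by
  unfold orbitPoly
  rw [natDegree_prod_of_monic _ _ (fun _ _ => monic_X_sub_C _)]
  simp

theorem orbitPoly_eval (z : Ω') : (orbitPoly G z).eval z = 0 := by
  unfold orbitPoly
  rw [eval_prod]
  refine Finset.prod_eq_zero (Finset.mem_univ (1 : G)) ?_
  simp

theorem orbitPoly_map (z : Ω') (h : G) :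
    (orbitPoly G z).map ((h : Ω' ≃+* Ω') : Ω' →+* Ω') = orbitPoly G z := by
  unfold orbitPoly
  rw [Polynomial.map_prod]
  refine Fintype.prod_equiv (Equiv.mulLeft h) _ _ (fun g => ?_)
  simp [Polynomial.map_sub]

theorem orbitPoly_coeff_fixed (z : Ω') (h : G) (k : ℕ) :
    (h : Ω' ≃+* Ω') ((orbitPoly G z).coeff k) = (orbitPoly G z).coeff k := by
  have := congrArg (fun p => p.coeff k) (orbitPoly_map G z h)
  simpa [coeff_map] using this

/-- The coefficients of the orbit polynomial lie in every subring containing the orbit. -/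
theorem orbitPoly_coeff_mem (z : Ω') (T : Subring Ω')
    (hz : ∀ g : G, (g : Ω' ≃+* Ω') z ∈ T) (k : ℕ) : (orbitPoly G z).coeff k ∈ T := by
  have : orbitPoly G z = (∏ g : G, (X - C (⟨(g : Ω' ≃+* Ω') z, hz g⟩ : T))).map T.subtype := by
    unfold orbitPoly
    rw [Polynomial.map_prod]
    refine Finset.prod_congr rfl (fun g _ => ?_)
    simp
  rw [this, coeff_map]
  exact Subtype.property _

/-- Scaling: `∏ (X - g b)` composed with `w X` is `w ^ n ∏ (X - g (b / w))` when `G` fixes `w`. -/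
theorem orbitPoly_comp (b w : Ω') (hw : w ≠ 0) (hGw : ∀ g : G, (g : Ω' ≃+* Ω') w = w) :
    (orbitPoly G b).comp (C w * X) = C (w ^ Fintype.card G) * orbitPoly G (b * w⁻¹) := by
  unfold orbitPoly
  rw [Polynomial.prod_comp]
  have h1 : ∀ g : G, (X - C ((g : Ω' ≃+* Ω') b)).comp (C w * X)
      = C w * (X - C ((g : Ω' ≃+* Ω') (b * w⁻¹))) := by
    intro g
    rw [sub_comp, X_comp, C_comp, map_mul, map_inv₀, hGw g, mul_sub, ← C_mul]
    congr 2
    field_simp
  rw [Finset.prod_congr rfl (fun g _ => h1 g), Finset.prod_mul_distrib, Finset.prod_const,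
    Finset.card_univ, ← C_pow]

theorem orbitPoly_coeff_scale (b w : Ω') (hw : w ≠ 0)
    (hGw : ∀ g : G, (g : Ω' ≃+* Ω') w = w) (k : ℕ) (hk : k ≤ Fintype.card G) :
    (orbitPoly G (b * w⁻¹)).coeff k * w ^ (Fintype.card G - k) = (orbitPoly G b).coeff k := by
  have h := congrArg (fun p => p.coeff k) (orbitPoly_comp G b w hw hGw)
  simp only [comp_C_mul_X_coeff, coeff_C_mul] at h
  have hwk : w ^ k ≠ 0 := pow_ne_zero _ hw
  apply mul_right_cancel₀ hwk
  rw [h, mul_assoc, ← pow_add, Nat.sub_add_cancel hk, mul_comm]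

end Group

section Descent

variable {Ω' : Type*} [Field Ω']

/-- **Galois descent of the `q`-expansion principle** (see the module docstring). -/
theorem qep_of_galois (P : Subring Ω') (F₀ F' : Subfield Ω') (V' : Subring Ω') (w : Ω')
    (hw : w ≠ 0) (hwF : w ∈ F') (G : Subgroup (Ω' ≃+* Ω')) [Finite G]
    (hGP : ∀ g ∈ G, ∀ a ∈ P, (g : Ω' ≃+* Ω') a = a)
    (hGw : ∀ g ∈ G, (g : Ω' ≃+* Ω') w = w)
    (hGF : ∀ g ∈ G, ∀ f ∈ F', (g : Ω' ≃+* Ω') f ∈ F')
    (hGV : ∀ g ∈ G, ∀ f ∈ V', (g : Ω' ≃+* Ω') f ∈ V')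
    (hinv : ∀ f ∈ F', (∀ g ∈ G, (g : Ω' ≃+* Ω') f = f) → f ∈ F₀)
    (hbase : ∀ c ∈ F₀, c ∈ V' → (∃ j : ℕ, IsIntegral P (c * w ^ j)) → IsIntegral P c)
    {b : Ω'} (hbF : b ∈ F') (hb : IsIntegral P b) (hbV : b * w⁻¹ ∈ V') :
    IsIntegral P (b * w⁻¹) := by
  classical
  have _inst : Fintype G := Fintype.ofFinite G
  set z := b * w⁻¹ with hz
  have hzF : z ∈ F' := F'.mul_mem hbF (F'.inv_mem hwF)
  -- every conjugate of `b` is integral over `P`
  have hgb : ∀ g : G, IsIntegral P ((g : Ω' ≃+* Ω') b) := by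
    intro g
    obtain ⟨q, hq, hqb⟩ := hb
    refine ⟨q, hq, ?_⟩
    have hcomp : (((g : Ω' ≃+* Ω') : Ω' →+* Ω').comp (algebraMap P Ω')) = algebraMap P Ω' := by
      ext a
      exact hGP g g.2 a a.2
    have := Polynomial.hom_eval₂ q (algebraMap P Ω') ((g : Ω' ≃+* Ω') : Ω' →+* Ω') b
    rw [hqb, map_zero, hcomp] at this
    exact this.symm
  have hcoef : ∀ k, IsIntegral P ((orbitPoly G z).coeff k) := by
    intro k
    by_cases hk : k ≤ Fintype.card G
    · set c := (orbitPoly G z).coeff k with hc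
      have hcF : c ∈ F' :=
        orbitPoly_coeff_mem G z F'.toSubring (fun g => hGF g g.2 z hzF) k
      have hcV : c ∈ V' := orbitPoly_coeff_mem G z V' (fun g => hGV g g.2 z hbV) k
      have hcfix : ∀ g ∈ G, (g : Ω' ≃+* Ω') c = c :=
        fun g hg => orbitPoly_coeff_fixed G z ⟨g, hg⟩ k
      have hcF₀ : c ∈ F₀ := hinv c hcF hcfix
      refine hbase c hcF₀ hcV ⟨Fintype.card G - k, ?_⟩
      rw [hc, hz, orbitPoly_coeff_scale G b w hw (fun g => hGw g g.2) k hk]
      exact orbitPoly_coeff_mem G b (integralClosure P Ω').toSubring (fun g => hgb g) k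
    · rw [coeff_eq_zero_of_natDegree_lt (by rw [orbitPoly_natDegree]; omega)]
      exact isIntegral_zero
  exact isIntegral_of_monic_of_coeff_isIntegral _ (orbitPoly_monic G z) hcoef (orbitPoly_eval G z)

end Descent

end Fermat.Agent.S48.H588
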