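import Fermat.Agent.S18.Alg.Spec
import Fermat.Agent.S18.H94.Dvr
import Fermat.Agent.S18.H138.ChartsConst
import Fermat.Agent.S48.H588.GaloisDescent

/-!
# Tower A1 (S48 / RES), node I-QEP: unique Gauss valuation ⟹ `q`-expansion principle

In the language of the frozen `S18/Alg/Spec.lean` (`polyRing`, `ratField`, `chart`).

* `mem_polyRing_of_gauss` (QEP for the rational function field `Ec(x)`): `R` a DVR with
  uniformiser `w`, `x` transcendental over `R`, `V ⊇ R[x]` a subring in which every primitive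
  polynomial in `x` is a unit and `w` is not: `c ∈ Frac(R)(x) ∩ V`, `c w^j` integral over `R[x]`
  ⟹ `c ∈ R[x]`.
* `qep_of_unique_gauss` : let `Ffull ⊇ Ec(x)` admit a finite group `G` of automorphisms fixing
  `Ec(x)` with `Ffull^G ⊆ Ec(x)` (i.e. `Ffull/Ec(x)` Galois) and let `V` be a `G`-STABLE subring
  with the Gauss property (in the application: the Gauss valuation ring of `Ffull`, which is
  `G`-stable as soon as it is the UNIQUE extension of the Gauss valuation of `Ec(x)` — Igusa).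
  Then for EVERY intermediate field `Fc ≤ Ffull` (e.g. the `Γ₁(M)`-field inside the full level
  `M` field) the fields `qep_fin` (coordinate `x`) of `GoodModel` hold.  Apply it to `x⁻¹` for
  `qep_inf`.
-/

set_option autoImplicit false

namespace Fermat.Agent.S48.H588

open Fermat.Agent.S18.Alg Polynomial

variable {Ω : Type*} [Field Ω]

/-- Integrality over a subring, in terms of polynomials over the ambient field. -/
theorem isIntegral_subring_iff (T : Subring Ω) (b : Ω) :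
    IsIntegral T b ↔ ∃ p : Polynomial Ω, p.Monic ∧ (∀ i, p.coeff i ∈ T) ∧ p.eval b = 0 := by
  constructor
  · rintro ⟨q, hq, hqb⟩
    refine ⟨q.map T.subtype, hq.map _, fun i => ?_, ?_⟩
    · rw [coeff_map]; exact (q.coeff i).2
    · rw [eval_map]; exact hqb
  · rintro ⟨p, hp, hc, hpb⟩
    have hsub : (↑p.coeffs : Set Ω) ⊆ T := by
      intro c hc'
      obtain ⟨i, _, rfl⟩ := Polynomial.mem_coeffs_iff.mp (by exact_mod_cast hc')
      exact hc i
    refine ⟨p.toSubring T hsub, (p.monic_toSubring _ _).mpr hp, ?_⟩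
    have : eval₂ (algebraMap T Ω) b (p.toSubring T hsub)
        = ((p.toSubring T hsub).map T.subtype).eval b := by
      rw [eval_map]; rfl
    rw [this, p.map_toSubring T hsub, hpb]

theorem isIntegral_of_subring_eq {T T' : Subring Ω} (h : ∀ a, a ∈ T → a ∈ T') {b : Ω}
    (hb : IsIntegral T b) : IsIntegral T' b := by
  rw [isIntegral_subring_iff] at hb ⊢
  obtain ⟨p, hp, hc, hpb⟩ := hb
  exact ⟨p, hp, fun i => h _ (hc i), hpb⟩

/-- Elements of the base field integral over an integrally closed subalgebra with that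
fraction field lie in the subalgebra (copy of `S18.H138.mem_of_isIntegral_of_mem`, which lives in
a heavier module). -/
theorem mem_of_isIntegral_of_mem588 {R₀ : Type*} [CommRing R₀] [Algebra R₀ Ω]
    (A : Subalgebra R₀ Ω) [IsIntegrallyClosed A] (K : Subfield Ω)
    (hAK : ∀ a ∈ A, a ∈ K) (hfrac : ∀ z ∈ K, ∃ a ∈ A, ∃ b ∈ A, z = a / b)
    {z : Ω} (hzK : z ∈ K) (hz : IsIntegral A z) : z ∈ A := by
  have h := Fermat.Agent.S18.H138.minpoly_coeff_mem A K hAK hfrac hz 0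
  have h2 : minpoly K z = X - C (⟨z, hzK⟩ : K) :=
    minpoly.eq_X_sub_C_of_algebraMap_inj (⟨z, hzK⟩ : K) (algebraMap K Ω).injective
  rw [h2] at h
  simp only [coeff_sub, coeff_X_zero, coeff_C_zero, zero_sub] at h
  have : -(-z) ∈ A := A.neg_mem h
  simpa using this

section Base

variable (R V : Subring Ω) {w x : Ω}

theorem polyRing_eq_adjoin (x : Ω) :
    polyRing R x = (Algebra.adjoin R ({x} : Set Ω)).toSubring := by
  rw [Algebra.adjoin_eq_ring_closure]
  unfold polyRing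
  congr 2
  ext z
  constructor
  · intro hz
    exact ⟨⟨z, hz⟩, rfl⟩
  · rintro ⟨a, rfl⟩
    exact a.2

theorem mem_polyRing_iff_aeval {x c : Ω} :
    c ∈ polyRing R x ↔ ∃ Q : Polynomial R, aeval x Q = c := by
  rw [polyRing_eq_adjoin]
  exact Fermat.Agent.S18.H138.mem_adjoin_singleton_iff

variable (hwA : w ∈ R) (hw0 : w ≠ 0) (hwinv : w⁻¹ ∉ R)
  (hdisc : ∀ r ∈ R, r ≠ 0 → ∃ n : ℕ, r * (w⁻¹) ^ n ∈ R ∧ (r * (w⁻¹) ^ n)⁻¹ ∈ R)

include hwA hw0 hdisc in
/-- In a DVR: `r ∈ R`, `r / w ∉ R` ⟹ `r` is a unit. -/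
theorem inv_mem_of_div_not_mem {r : Ω} (hr : r ∈ R) (hrw : r * w⁻¹ ∉ R) :
    r ≠ 0 ∧ r⁻¹ ∈ R := by
  have hr0 : r ≠ 0 := fun h => hrw (by rw [h, zero_mul]; exact R.zero_mem)
  refine ⟨hr0, ?_⟩
  obtain ⟨n, hn1, hn2⟩ := hdisc r hr hr0
  rcases Nat.eq_zero_or_pos n with hn | hn
  · rw [hn, pow_zero, mul_one] at hn2
    exact hn2
  · exfalso
    apply hrw
    obtain ⟨k, rfl⟩ : ∃ k, n = k + 1 := ⟨n - 1, by omega⟩
    have : r * w⁻¹ = (r * (w⁻¹) ^ (k + 1)) * w ^ k := by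
      rw [pow_succ, inv_pow]
      field_simp
    rw [this]
    exact R.mul_mem hn1 (R.pow_mem hwA k)

include hwA hw0 hdisc in
/-- Dividing a polynomial in `x` by `w` inside `V`. -/
theorem exists_aeval_eq_mul_inv_pow (hx : Transcendental R x) (hRV : R ≤ V) (hwV : w⁻¹ ∉ V)
    (hgauss : ∀ P : Polynomial Ω, (∀ i, P.coeff i ∈ R) →
      (∃ i, P.coeff i ≠ 0 ∧ (P.coeff i)⁻¹ ∈ R) → (P.eval x)⁻¹ ∈ V) :
    ∀ (j : ℕ) (Q : Polynomial R), aeval x Q * (w⁻¹) ^ j ∈ V →
      ∃ Q' : Polynomial R, aeval x Q' = aeval x Q * (w⁻¹) ^ j := by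
  intro j
  induction j with
  | zero => intro Q _; exact ⟨Q, by simp⟩
  | succ j ih =>
    intro Q hQ
    have hwV' : w ∈ V := hRV hwA
    -- `Q(x) / w ∈ V`
    have h1 : aeval x Q * w⁻¹ ∈ V := by
      have : aeval x Q * w⁻¹ = (aeval x Q * (w⁻¹) ^ (j + 1)) * w ^ j := by
        rw [pow_succ, inv_pow]; field_simp
      rw [this]
      exact V.mul_mem hQ (V.pow_mem hwV' j)
    -- all coefficients of `Q` are divisible by `w`
    have hdiv : ∀ i, ((Q.coeff i : R) : Ω) * w⁻¹ ∈ R := by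
      by_contra hne
      push Not at hne
      obtain ⟨i, hi⟩ := hne
      have hu := inv_mem_of_div_not_mem R hwA hw0 hdisc (Q.coeff i).2 hi
      have hg := hgauss (Q.map R.subtype) (fun n => by rw [coeff_map]; exact (Q.coeff n).2)
        ⟨i, by rw [coeff_map]; exact hu⟩
      have hev : (Q.map R.subtype).eval x = aeval x Q := by
        rw [eval_map]; rfl
      rw [hev] at hg
      have hne0 : aeval x Q ≠ 0 := by
        intro h0
        have := (transcendental_iff.1 hx) Q h0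
        apply hu.1
        rw [this]; simp
      apply hwV
      have : w⁻¹ = (aeval x Q * w⁻¹) * (aeval x Q)⁻¹ := by field_simp
      rw [this]
      exact V.mul_mem h1 hg
    -- the quotient polynomial
    let Q₁ : Polynomial R := ∑ i ∈ Q.support, monomial i (⟨(Q.coeff i : Ω) * w⁻¹, hdiv i⟩ : R)
    have hQ₁ : aeval x Q₁ = aeval x Q * w⁻¹ := by
      conv_rhs => rw [Q.as_sum_support]
      simp only [Q₁, map_sum, aeval_monomial, Finset.sum_mul]
      refine Finset.sum_congr rfl (fun i _ => ?_)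
      show (Q.coeff i : Ω) * w⁻¹ * x ^ i = (Q.coeff i : Ω) * x ^ i * w⁻¹
      ring
    have h2 : aeval x Q₁ * (w⁻¹) ^ j ∈ V := by
      rw [hQ₁]
      have : aeval x Q * w⁻¹ * (w⁻¹) ^ j = aeval x Q * (w⁻¹) ^ (j + 1) := by
        rw [pow_succ]; ring
      rw [this]; exact hQ
    obtain ⟨Q', hQ'⟩ := ih Q₁ h2
    refine ⟨Q', ?_⟩
    rw [hQ', hQ₁, pow_succ]; ring

include hwA hw0 hwinv hdisc in
/-- **QEP for the rational function field.** -/
theorem mem_polyRing_of_gauss (hx : Transcendental R x) (hRV : R ≤ V) (hwV : w⁻¹ ∉ V)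
    (hgauss : ∀ P : Polynomial Ω, (∀ i, P.coeff i ∈ R) →
      (∃ i, P.coeff i ≠ 0 ∧ (P.coeff i)⁻¹ ∈ R) → (P.eval x)⁻¹ ∈ V)
    {c : Ω} (hcK : c ∈ Subfield.closure ((R : Set Ω) ∪ {x})) (hcV : c ∈ V)
    (hint : ∃ j : ℕ, IsIntegral (polyRing R x) (c * w ^ j)) : c ∈ polyRing R x := by
  obtain ⟨j, hj⟩ := hint
  have _i1 : IsDiscreteValuationRing R :=
    Fermat.Agent.S18.H94.isDiscreteValuationRing_of_disc94 R hwA hw0 hwinv hdisc
  have _i2 : IsIntegrallyClosed (Polynomial R) := UniqueFactorizationMonoid.instIsIntegrallyClosed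
  have _i3 := Fermat.Agent.S18.H138.isIntegrallyClosed_adjoin_singleton (R := R) hx
  -- `g = c w^j ∈ R[x]`
  have hgK : c * w ^ j ∈ Fermat.Agent.S18.H138.baseField R x := by
    have hb : Fermat.Agent.S18.H138.baseField R x = Subfield.closure ((R : Set Ω) ∪ {x}) := by
      unfold Fermat.Agent.S18.H138.baseField
      congr 2
      ext z
      constructor
      · rintro ⟨a, rfl⟩
        exact a.2
      · intro hz
        exact ⟨⟨z, hz⟩, rfl⟩
    rw [hb]
    have hwK : w ∈ Subfield.closure ((R : Set Ω) ∪ {x}) :=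
      Subfield.subset_closure (Or.inl hwA)
    exact mul_mem hcK (pow_mem hwK j)
  have hgint : IsIntegral (Algebra.adjoin R ({x} : Set Ω)) (c * w ^ j) := by
    have h1 : IsIntegral (Algebra.adjoin R ({x} : Set Ω)).toSubring (c * w ^ j) :=
      isIntegral_of_subring_eq (fun a ha => by rw [polyRing_eq_adjoin] at ha; exact ha) hj
    exact h1
  have hg : c * w ^ j ∈ Algebra.adjoin R ({x} : Set Ω) :=
    mem_of_isIntegral_of_mem588 _ (Fermat.Agent.S18.H138.baseField R x)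
      (fun a ha => Fermat.Agent.S18.H138.adjoin_le_baseField x ha)
      (fun z hz => Fermat.Agent.S18.H138.exists_div_of_mem_baseField x hz) hgK hgint
  obtain ⟨Q, hQ⟩ := Fermat.Agent.S18.H138.mem_adjoin_singleton_iff.1 hg
  have hc : aeval x Q * (w⁻¹) ^ j = c := by
    rw [hQ, inv_pow, mul_assoc, mul_inv_cancel₀ (pow_ne_zero _ hw0), mul_one]
  obtain ⟨Q', hQ'⟩ := exists_aeval_eq_mul_inv_pow R V hwA hw0 hdisc hx hRV hwV hgauss j Q
    (by rw [hc]; exact hcV)
  rw [mem_polyRing_iff_aeval]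
  exact ⟨Q', by rw [hQ', hc]⟩

end Base

section Unique

theorem isIntegral_of_mem_subring {T : Subring Ω} {c : Ω} (hc : c ∈ T) : IsIntegral T c := by
  rw [isIntegral_subring_iff]
  refine ⟨X - C c, monic_X_sub_C c, fun i => ?_, by simp⟩
  rw [coeff_sub, coeff_X, coeff_C]
  split_ifs
  · exact T.sub_mem T.one_mem hc
  · exact T.sub_mem T.one_mem T.zero_mem
  · exact T.sub_mem T.zero_mem hc
  · exact T.sub_mem T.zero_mem T.zero_mem

/-- **Node I-QEP: unique (Galois-stable) Gauss valuation ⟹ `q`-expansion principle**, for every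
intermediate field `Fc ≤ Ffull`.  See the module docstring. -/
theorem qep_of_unique_gauss (Ec Fc Ffull : Subfield Ω) (R V : Subring Ω) {w x : Ω}
    (hRE : ∀ r ∈ R, r ∈ Ec) (hRtot : ∀ e ∈ Ec, e ∈ R ∨ e⁻¹ ∈ R)
    (hwA : w ∈ R) (hw0 : w ≠ 0) (hwinv : w⁻¹ ∉ R)
    (hdisc : ∀ r ∈ R, r ≠ 0 → ∃ n : ℕ, r * (w⁻¹) ^ n ∈ R ∧ (r * (w⁻¹) ^ n)⁻¹ ∈ R)
    (hx : Transcendental R x)
    (hFc : Fc ≤ Ffull) (hwFc : w ∈ Fc)
    (hRV : R ≤ V) (hwV : w⁻¹ ∉ V)
    (hgauss : ∀ P : Polynomial Ω, (∀ i, P.coeff i ∈ R) →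
      (∃ i, P.coeff i ≠ 0 ∧ (P.coeff i)⁻¹ ∈ R) → (P.eval x)⁻¹ ∈ V)
    (G : Subgroup (Ω ≃+* Ω)) [Finite G]
    (hGE : ∀ g ∈ G, ∀ a ∈ Ec, (g : Ω ≃+* Ω) a = a) (hGx : ∀ g ∈ G, (g : Ω ≃+* Ω) x = x)
    (hGF : ∀ g ∈ G, ∀ f ∈ Ffull, (g : Ω ≃+* Ω) f ∈ Ffull)
    (hGV : ∀ g ∈ G, ∀ f ∈ V, (g : Ω ≃+* Ω) f ∈ V)
    (hinv : ∀ f ∈ Ffull, (∀ g ∈ G, (g : Ω ≃+* Ω) f = f) → f ∈ ratField Ec x) :
    ∀ b ∈ chart Fc R x, b * w⁻¹ ∈ V → b * w⁻¹ ∈ chart Fc R x := by
  intro b hb hbV
  refine ⟨Fc.mul_mem hb.1 (Fc.inv_mem hwFc), ?_⟩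
  have hGP : ∀ g ∈ G, ∀ a ∈ polyRing R x, (g : Ω ≃+* Ω) a = a := by
    intro g hg a ha
    unfold polyRing at ha
    induction ha using Subring.closure_induction with
    | mem z hz =>
      rcases hz with hz | hz
      · exact hGE g hg z (hRE z hz)
      · rw [Set.mem_singleton_iff] at hz
        rw [hz]; exact hGx g hg
    | zero => simp
    | one => simp
    | add y z _ _ hy hz => rw [map_add, hy, hz]
    | neg y _ hy => rw [map_neg, hy]
    | mul y z _ _ hy hz => rw [map_mul, hy, hz]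
  have hK : ratField Ec x ≤ Subfield.closure ((R : Set Ω) ∪ {x}) := by
    unfold ratField
    rw [Subfield.closure_le]
    rintro z (hz | hz)
    · rcases hRtot z hz with h1 | h1
      · exact Subfield.subset_closure (Or.inl h1)
      · have : z⁻¹ ∈ Subfield.closure ((R : Set Ω) ∪ {x}) :=
          Subfield.subset_closure (Or.inl h1)
        have h2 := (Subfield.closure ((R : Set Ω) ∪ {x})).inv_mem this
        rwa [inv_inv] at h2
    · exact Subfield.subset_closure (Or.inr hz)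
  refine qep_of_galois (polyRing R x) (ratField Ec x) Ffull V w hw0 (hFc hwFc) G hGP
    (fun g hg => hGE g hg w (hRE w hwA)) hGF hGV hinv ?_ (hFc hb.1) hb.2 hbV
  intro c hcK hcV hint
  exact isIntegral_of_mem_subring
    (mem_polyRing_of_gauss R V hwA hw0 hwinv hdisc hx hRV hwV hgauss (hK hcK) hcV hint)

end Unique

end Fermat.Agent.S48.H588
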