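import Fermat.Agent.S48.H588.StepBasic
import Fermat.Agent.S48.H588.GaloisDescent

/-!
# Tower A1 (S48 / RES): ONE STEP of the tower of good models (helper588)

`ι : Ω →+* Ω'`, `Ω = Fc·Lc` carrying a `Fermat.Agent.S18.Alg.GoodModel`, `Ω' = Fc'·ι(Lc)` with
`Fc' ⊇ ι(Fc)` a finite extension admitting a finite group `G` of automorphisms with
`(Fc')^G ⊆ ι(Fc)` (e.g. a Galois step of the tower `F₀(M') ⊂ … ⊂ F_H`).

`StepData` lists what has to be known about the step: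

* field theory: `compositum`, `E_closed` (no new constants), `finite`;
* the Gauss valuation ring `V'` of `Fc'`: a valuation ring of `Fc'` containing `ι(V)` with
  uniformiser `ι w` (i.e. the Gauss valuation of `Fc` is UNRAMIFIED in `Fc'`), stable under `G`
  (automatic when `V'` is the unique extension of `V`, i.e. when `V` is INERT), with residue
  field separable over `κ(x̄)`;
* `unram`: every place of `Ω'` over `Lc` has a uniformiser coming from `Ω`
  (`Ω'/Ω` is unramified at every place).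

`goodModel_step`: then the transported tuple is again a `GoodModel`.  In particular the
`q`-expansion principle `qep_fin`, `qep_inf` climbs the step (by Galois descent, no Krull domains).
So `AlgMainStatement` (the hub of S18) applies to `Fc'`.
-/

set_option autoImplicit false

namespace Fermat.Agent.S48.H588

open Fermat.Agent.S18.Alg Polynomial

variable {Ω Ω' : Type*} [Field Ω] [Field Ω']

/-- The hypotheses on one step `Fc ⊆ Fc'` of the tower (see the module docstring). -/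
structure StepData (ι : Ω →+* Ω') (Lc Ec Fc : Subfield Ω) (R V : Subring Ω) (w x : Ω)
    (Fc' : Subfield Ω') (V' : Subring Ω') (G : Subgroup (Ω' ≃+* Ω')) : Prop where
  F_le : Fc.map ι ≤ Fc'
  compositum : Subfield.closure ((Fc' : Set Ω') ∪ ((Lc.map ι : Subfield Ω') : Set Ω')) = ⊤
  E_closed : ∀ f ∈ Fc', IsAlgebraic (Ec.map ι) f → f ∈ Ec.map ι
  finite : ∃ s : Finset Ω', (s : Set Ω') ⊆ Fc' ∧
    ∀ f ∈ Fc', f ∈ Submodule.span (Fc.map ι) (s : Set Ω')
  V_le : (V' : Set Ω') ⊆ Fc'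
  V_total : ∀ f ∈ Fc', f ∈ V' ∨ f⁻¹ ∈ V'
  V_le_V' : V.map ι ≤ V'
  w_inv_not_mem : (ι w)⁻¹ ∉ V'
  V_gen : ∀ f ∈ V', f⁻¹ ∉ V' → f * (ι w)⁻¹ ∈ V'
  separable : ∀ f ∈ V', ∃ P : Polynomial Ω', (∀ i, P.coeff i ∈ polyRing (R.map ι) (ι x)) ∧
    P.eval f * (ι w)⁻¹ ∈ V' ∧ (Polynomial.derivative P).eval f ≠ 0 ∧
    ((Polynomial.derivative P).eval f)⁻¹ ∈ V'
  G_finite : Finite G
  G_fix : ∀ g ∈ G, ∀ a ∈ Fc.map ι, (g : Ω' ≃+* Ω') a = a
  G_F : ∀ g ∈ G, ∀ f ∈ Fc', (g : Ω' ≃+* Ω') f ∈ Fc'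
  G_V : ∀ g ∈ G, ∀ f ∈ V', (g : Ω' ≃+* Ω') f ∈ V'
  G_inv : ∀ f ∈ Fc', (∀ g ∈ G, (g : Ω' ≃+* Ω') f = f) → f ∈ Fc.map ι
  unram : ∀ O : ValuationSubring Ω', (∀ a ∈ Lc.map ι, a ∈ O) → ∀ t ∈ O, t⁻¹ ∉ O →
    ∃ s : Ω, ι s ∈ O ∧ (ι s)⁻¹ ∉ O ∧ t * (ι s)⁻¹ ∈ O

section Transport

variable (ι : Ω →+* Ω')

theorem mem_subring_map_iff {T : Subring Ω} {a : Ω} : ι a ∈ T.map ι ↔ a ∈ T := by
  constructor
  · rintro ⟨b, hb, h⟩
    rwa [← ι.injective h]
  · intro h
    exact ⟨a, h, rfl⟩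

theorem mem_subfield_map_iff {T : Subfield Ω} {a : Ω} : ι a ∈ T.map ι ↔ a ∈ T := by
  constructor
  · rintro ⟨b, hb, h⟩
    rwa [← ι.injective h]
  · intro h
    exact ⟨a, h, rfl⟩

/-- The canonical ring isomorphism `T ≃ ι(T)` for a subfield `T`. -/
noncomputable def subfieldMapEquiv (T : Subfield Ω) : T ≃+* T.map ι :=
  RingEquiv.ofBijective
    ({ toFun := fun a => ⟨ι a, Subfield.mem_map.mpr ⟨a, a.2, rfl⟩⟩
       map_one' := by ext; simp
       map_mul' := fun a b => by ext; simp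
       map_zero' := by ext; simp
       map_add' := fun a b => by ext; simp } : T →+* T.map ι)
    ⟨fun a b hab => Subtype.ext (ι.injective (congrArg Subtype.val hab)),
      fun c => by
        obtain ⟨a, ha, h⟩ := Subfield.mem_map.mp c.2
        exact ⟨⟨a, ha⟩, Subtype.ext h⟩⟩

@[simp] theorem coe_subfieldMapEquiv (T : Subfield Ω) (a : T) :
    ((subfieldMapEquiv ι T a : T.map ι) : Ω') = ι a := rfl

theorem algebraMap_comp_subfieldMapEquiv (T : Subfield Ω) :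
    (algebraMap (T.map ι) Ω').comp (subfieldMapEquiv ι T : T →+* T.map ι)
      = ι.comp (algebraMap T Ω) := by
  ext a; rfl

theorem isAlgebraic_map {T : Subfield Ω} {a : Ω} (ha : IsAlgebraic T a) :
    IsAlgebraic (T.map ι) (ι a) := by
  obtain ⟨p, hp0, hp⟩ := ha
  refine ⟨p.map (subfieldMapEquiv ι T : T →+* T.map ι), ?_, ?_⟩
  · exact (Polynomial.map_ne_zero_iff (subfieldMapEquiv ι T).injective).mpr hp0
  · rw [aeval_def, eval₂_map, algebraMap_comp_subfieldMapEquiv, ← hom_eval₂]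
    rw [aeval_def] at hp
    rw [hp, map_zero]

theorem isAlgebraic_of_map {T : Subfield Ω} {a : Ω} (ha : IsAlgebraic (T.map ι) (ι a)) :
    IsAlgebraic T a := by
  obtain ⟨p, hp0, hp⟩ := ha
  refine ⟨p.map ((subfieldMapEquiv ι T).symm : T.map ι →+* T), ?_, ?_⟩
  · exact (Polynomial.map_ne_zero_iff (subfieldMapEquiv ι T).symm.injective).mpr hp0
  · apply ι.injective
    rw [map_zero, aeval_def, hom_eval₂, eval₂_map]
    rw [aeval_def] at hp
    have : (ι.comp (algebraMap T Ω)).comp ((subfieldMapEquiv ι T).symm : T.map ι →+* T)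
        = algebraMap (T.map ι) Ω' := by
      rw [← algebraMap_comp_subfieldMapEquiv, RingHom.comp_assoc]
      ext c
      simp
    rw [this, hp]

theorem isAlgClosed_map {T : Subfield Ω} (hT : IsAlgClosed T) : IsAlgClosed (T.map ι) := by
  refine IsAlgClosed.of_exists_root _ (fun p hp hirr => ?_)
  set e := subfieldMapEquiv ι T
  set q : T[X] := p.map (e.symm : T.map ι →+* T) with hq
  have hdeg : q.degree ≠ 0 := by
    rw [hq, degree_map_eq_of_injective e.symm.injective]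
    exact degree_ne_of_natDegree_ne hirr.natDegree_pos.ne' 
  obtain ⟨a, ha⟩ := IsAlgClosed.exists_root q hdeg
  refine ⟨e a, ?_⟩
  have hp' : p = q.map (e : T →+* T.map ι) := by
    rw [hq, Polynomial.map_map]
    have : (e : T →+* T.map ι).comp (e.symm : T.map ι →+* T) = RingHom.id _ := by
      ext c; simp
    rw [this, Polynomial.map_id]
  rw [hp', eval_map]
  have h2 := Polynomial.hom_eval₂ q (RingHom.id T) (e : T →+* T.map ι) a
  rw [RingHom.comp_id] at h2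
  rw [eval₂_id, show eval a q = 0 from ha, map_zero] at h2
  exact h2.symm

end Transport

section Step

variable {ι : Ω →+* Ω'} {Lc Ec Fc : Subfield Ω} {R V : Subring Ω} {w x : Ω} {S : Finset Ω}
  {Fc' : Subfield Ω'} {V' : Subring Ω'} {G : Subgroup (Ω' ≃+* Ω')}

theorem goodModel_R_le_F (h : GoodModel Lc Ec Fc R V w x S) : ∀ r ∈ R, r ∈ Fc :=
  fun _ hr => h.E_le_F (h.R_le hr)

theorem goodModel_w_mem_V (h : GoodModel Lc Ec Fc R V w x S) : w ∈ V := h.R_le_V h.w_mem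

/-- `V' ∩ ι(Fc) = ι(V)`. -/
theorem StepData.mem_V_of_map_mem (hs : StepData ι Lc Ec Fc R V w x Fc' V' G)
    (h : GoodModel Lc Ec Fc R V w x S) {a : Ω} (haF : a ∈ Fc) (ha : ι a ∈ V') : a ∈ V := by
  rcases h.V_total a haF with h1 | h1
  · exact h1
  · by_contra hV
    have h2 : (a⁻¹)⁻¹ ∉ V := by rwa [inv_inv]
    have h3 := h.V_gen a⁻¹ h1 h2
    have ha0 : a ≠ 0 := fun h0 => hV (by rw [h0]; exact V.zero_mem)
    have h4 : ι (a⁻¹ * w⁻¹) ∈ V' := hs.V_le_V' ⟨_, h3, rfl⟩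
    have h5 : ι a * ι (a⁻¹ * w⁻¹) ∈ V' := V'.mul_mem ha h4
    have h6 : ι a * ι (a⁻¹ * w⁻¹) = (ι w)⁻¹ := by
      rw [← map_mul, ← mul_assoc, mul_inv_cancel₀ ha0, one_mul, map_inv₀]
    rw [h6] at h5
    exact hs.w_inv_not_mem h5

theorem polyRing_le_of_mem (h : GoodModel Lc Ec Fc R V w x S) {x₀ : Ω} (hx₀ : x₀ ∈ Fc) :
    polyRing R x₀ ≤ Fc.toSubring := by
  unfold polyRing
  rw [Subring.closure_le]
  rintro z (hz | hz)
  · exact (goodModel_R_le_F h) z hz
  · rw [Set.mem_singleton_iff] at hz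
    rw [hz]; exact hx₀

/-- Iterating the `q`-expansion principle of the base. -/
theorem mem_chart_of_mul_pow_mem (h : GoodModel Lc Ec Fc R V w x S) {x₀ : Ω}
    (hqep : ∀ b ∈ chart Fc R x₀, b * w⁻¹ ∈ V → b * w⁻¹ ∈ chart Fc R x₀)
    {a : Ω} (haV : a ∈ V) : ∀ j : ℕ, a * w ^ j ∈ chart Fc R x₀ → a ∈ chart Fc R x₀ := by
  intro j
  induction j with
  | zero => intro hj; simpa using hj
  | succ j ih =>
    intro hj
    apply ih
    have h1 : a * w ^ (j + 1) * w⁻¹ = a * w ^ j := by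
      rw [pow_succ, mul_assoc, mul_assoc, mul_inv_cancel₀ h.w_ne_zero, mul_one]
    have h2 : a * w ^ (j + 1) * w⁻¹ ∈ V := by
      rw [h1]; exact V.mul_mem haV (V.pow_mem (goodModel_w_mem_V h) j)
    have := hqep _ hj h2
    rwa [h1] at this

/-- **The `q`-expansion principle climbs the step** (for any coordinate `x₀ ∈ Fc`). -/
theorem StepData.qep (hs : StepData ι Lc Ec Fc R V w x Fc' V' G)
    (h : GoodModel Lc Ec Fc R V w x S) {x₀ : Ω} (hx₀ : x₀ ∈ Fc)
    (hqep : ∀ b ∈ chart Fc R x₀, b * w⁻¹ ∈ V → b * w⁻¹ ∈ chart Fc R x₀) :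
    ∀ b ∈ chart Fc' (R.map ι) (ι x₀), b * (ι w)⁻¹ ∈ V' →
      b * (ι w)⁻¹ ∈ chart Fc' (R.map ι) (ι x₀) := by
  intro b hb hbV
  have hwF' : ι w ∈ Fc' := hs.F_le ⟨w, (goodModel_R_le_F h) w h.w_mem, rfl⟩
  refine ⟨Fc'.mul_mem hb.1 (Fc'.inv_mem hwF'), ?_⟩
  have _hfin := hs.G_finite
  have hP : polyRing (R.map ι) (ι x₀) ≤ (Fc.map ι).toSubring := by
    rw [← polyRing_map]
    intro z hz
    obtain ⟨a, ha, rfl⟩ := hz
    exact ⟨a, polyRing_le_of_mem h hx₀ ha, rfl⟩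
  refine qep_of_galois (polyRing (R.map ι) (ι x₀)) (Fc.map ι) Fc' V' (ι w)
    ((map_ne_zero ι).mpr h.w_ne_zero) hwF' G
    (fun g hg a ha => hs.G_fix g hg a (hP ha))
    (fun g hg => hs.G_fix g hg _ ⟨w, (goodModel_R_le_F h) w h.w_mem, rfl⟩)
    hs.G_F hs.G_V hs.G_inv ?_ hb.1 hb.2 hbV
  rintro c ⟨a, haF, rfl⟩ hcV ⟨j, hj⟩
  have haV : a ∈ V := hs.mem_V_of_map_mem h haF hcV
  have h1 : a * w ^ j ∈ chart Fc R x₀ := by
    refine mem_chart_of_map ι (Fc.mul_mem haF (Fc.pow_mem ((goodModel_R_le_F h) w h.w_mem) j)) ?_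
    rwa [map_mul, map_pow]
  have h2 := mem_chart_of_mul_pow_mem h hqep haV j h1
  rw [← polyRing_map]
  exact isIntegral_map_of_isIntegral ι h2.2

/-- The Gauss property climbs the step. -/
theorem StepData.gauss (hs : StepData ι Lc Ec Fc R V w x Fc' V' G)
    (h : GoodModel Lc Ec Fc R V w x S) :
    ∀ P : Polynomial Ω', (∀ i, P.coeff i ∈ R.map ι) →
      (∃ i, P.coeff i ≠ 0 ∧ (P.coeff i)⁻¹ ∈ R.map ι) → (P.eval (ι x))⁻¹ ∈ V' := by
  intro P hP ⟨i, hi0, hi⟩
  have hlift : P ∈ Polynomial.lifts ι := by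
    rw [Polynomial.lifts_iff_coeff_lifts]
    intro n
    obtain ⟨a, _, ha⟩ := hP n
    exact ⟨a, ha⟩
  obtain ⟨Q, rfl⟩ := (Polynomial.mem_lifts _).mp hlift
  have hQ : ∀ n, Q.coeff n ∈ R := by
    intro n
    have := hP n
    rw [coeff_map] at this
    exact (mem_subring_map_iff ι).mp this
  have hQi : Q.coeff i ≠ 0 ∧ (Q.coeff i)⁻¹ ∈ R := by
    rw [coeff_map] at hi0 hi
    refine ⟨fun h0 => hi0 (by rw [h0, map_zero]), ?_⟩
    rw [← map_inv₀] at hi
    exact (mem_subring_map_iff ι).mp hi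
  have h1 := h.gauss Q hQ ⟨i, hQi⟩
  have h2 : eval₂ ι (ι x) Q = ι (eval x Q) := by
    have := Polynomial.hom_eval₂ Q (RingHom.id Ω) ι x
    rw [RingHom.comp_id, eval₂_id] at this
    exact this.symm
  rw [eval_map, h2, ← map_inv₀]
  exact hs.V_le_V' ⟨_, h1, rfl⟩

/-- Finiteness climbs the step. -/
theorem StepData.finite' (hs : StepData ι Lc Ec Fc R V w x Fc' V' G)
    (h : GoodModel Lc Ec Fc R V w x S) :
    ∃ s : Finset Ω', (s : Set Ω') ⊆ Fc' ∧
      ∀ f ∈ Fc', f ∈ Submodule.span (ratField (Ec.map ι) (ι x)) (s : Set Ω') := by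
  classical
  obtain ⟨s₀, hs₀F, hs₀⟩ := h.finite
  obtain ⟨s₁, hs₁F, hs₁⟩ := hs.finite
  refine ⟨(s₀.image ι ×ˢ s₁).image (fun ab => ab.1 * ab.2), ?_, ?_⟩
  · intro z hz
    simp only [Finset.coe_image, Set.mem_image, Finset.mem_coe, Finset.mem_product,
      Finset.mem_image, Prod.exists] at hz
    obtain ⟨a, b, ⟨⟨a₀, ha₀, rfl⟩, hb⟩, rfl⟩ := hz
    exact Fc'.mul_mem (hs.F_le ⟨a₀, hs₀F ha₀, rfl⟩) (hs₁F hb)
  · intro f hf
    set K' := ratField (Ec.map ι) (ι x) with hK'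
    set T : Submodule K' Ω' :=
      Submodule.span K' (((s₀.image ι ×ˢ s₁).image (fun ab => ab.1 * ab.2) : Finset Ω') : Set Ω')
      with hT
    -- step 1: `ι a * b ∈ T` for `a ∈ Fc`, `b ∈ s₁`
    have step1 : ∀ a ∈ Fc, ∀ b ∈ s₁, ι a * b ∈ T := by
      intro a ha b hb
      have ha' := hs₀ a ha
      -- induct on the span membership of `a`
      refine Submodule.span_induction (p := fun a _ => ι a * b ∈ T) ?_ ?_ ?_ ?_ ha'
      · intro a₀ ha₀
        refine Submodule.subset_span ?_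
        simp only [Finset.coe_image, Set.mem_image, Finset.mem_coe, Finset.mem_product,
          Finset.mem_image, Prod.exists]
        exact ⟨ι a₀, b, ⟨⟨a₀, ha₀, rfl⟩, hb⟩, rfl⟩
      · simp
      · intro y z _ _ hy hz
        rw [map_add, add_mul]
        exact T.add_mem hy hz
      · intro c y _ hy
        have hc : ι (c : Ω) ∈ K' := by
          rw [hK', ← ratField_map]
          exact ⟨c, c.2, rfl⟩
        have : ι (c • y) * b = (⟨ι (c : Ω), hc⟩ : K') • (ι y * b) := by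
          rw [Subfield.smul_def, Subfield.smul_def, smul_eq_mul, smul_eq_mul, map_mul, mul_assoc]
        rw [this]
        exact T.smul_mem _ hy
    -- `T` is stable under multiplication by `ι(Fc)`
    have stab : ∀ a ∈ Fc, ∀ t ∈ T, ι a * t ∈ T := by
      intro a ha t ht
      refine Submodule.span_induction (p := fun t _ => ι a * t ∈ T) ?_ ?_ ?_ ?_ ht
      · intro z hz
        simp only [Finset.coe_image, Set.mem_image, Finset.mem_coe, Finset.mem_product,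
          Finset.mem_image, Prod.exists] at hz
        obtain ⟨_, b, ⟨⟨a₀, ha₀, rfl⟩, hb⟩, rfl⟩ := hz
        have := step1 (a * a₀) (Fc.mul_mem ha (hs₀F ha₀)) b hb
        rwa [map_mul, mul_assoc] at this
      · simp
      · intro y z _ _ hy hz
        rw [mul_add]
        exact T.add_mem hy hz
      · intro c y _ hy
        have : ι a * c • y = c • (ι a * y) := by
          rw [Subfield.smul_def, Subfield.smul_def, smul_eq_mul, smul_eq_mul]; ring
        rw [this]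
        exact T.smul_mem _ hy
    -- step 2: `f ∈ span_{ι Fc} s₁`
    have hf' := hs₁ f hf
    refine Submodule.span_induction (p := fun f _ => f ∈ T) ?_ ?_ ?_ ?_ hf'
    · intro b hb
      have := step1 1 Fc.one_mem b hb
      simpa using this
    · exact T.zero_mem
    · intro y z _ _ hy hz
      exact T.add_mem hy hz
    · intro c y _ hy
      obtain ⟨a, ha, hac⟩ := Subfield.mem_map.mp c.2
      have : c • y = ι a * y := by
        rw [Subfield.smul_def, smul_eq_mul, hac]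
      rw [this]
      exact stab a ha y hy

/-- Unramifiedness outside the branch values climbs the step. -/
theorem StepData.unramified (hs : StepData ι Lc Ec Fc R V w x Fc' V' G)
    (h : GoodModel Lc Ec Fc R V w x S) :
    ∀ O : ValuationSubring Ω', (∀ a ∈ Lc.map ι, a ∈ O) → ∀ c ∈ Lc.map ι,
      c ∉ S.map ⟨ι, ι.injective⟩ → ι x - c ∈ O → (ι x - c)⁻¹ ∉ O →
      ∀ t ∈ O, t⁻¹ ∉ O → t * (ι x - c)⁻¹ ∈ O := by
  intro O hO c hc hcS hxc hxc' t ht ht'
  obtain ⟨c₀, hc₀, rfl⟩ := hc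
  have hc₀S : c₀ ∉ S := fun hmem => hcS (Finset.mem_map.mpr ⟨c₀, hmem, rfl⟩)
  set O₀ : ValuationSubring Ω := O.comap ι with hO₀
  have hmem : ∀ a : Ω, a ∈ O₀ ↔ ι a ∈ O := fun a => Iff.rfl
  have hL : ∀ a ∈ Lc, a ∈ O₀ := fun a ha => (hmem a).mpr (hO _ ⟨a, ha, rfl⟩)
  have h1 : x - c₀ ∈ O₀ := by rw [hmem, map_sub]; exact hxc
  have h2 : (x - c₀)⁻¹ ∉ O₀ := by rw [hmem, map_inv₀, map_sub]; exact hxc'
  obtain ⟨s, hsO, hsO', hts⟩ := hs.unram O hO t ht ht'
  have h3 : s ∈ O₀ := (hmem s).mpr hsO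
  have h4 : s⁻¹ ∉ O₀ := by rw [hmem, map_inv₀]; exact hsO'
  have h5 := h.unramified O₀ hL c₀ hc₀ hc₀S h1 h2 s h3 h4
  rw [hmem, map_mul, map_inv₀, map_sub] at h5
  have hs0 : ι s ≠ 0 := by
    intro h0
    apply hsO'
    rw [h0, inv_zero]
    exact O.zero_mem
  have : t * (ι x - ι c₀)⁻¹ = (t * (ι s)⁻¹) * (ι s * (ι x - ι c₀)⁻¹) := by
    field_simp
  rw [this]
  exact O.mul_mem _ _ hts h5

theorem StepData.x_transcendental (_hs : StepData ι Lc Ec Fc R V w x Fc' V' G)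
    (h : GoodModel Lc Ec Fc R V w x S) : Transcendental (Lc.map ι) (ι x) := by
  intro halg
  exact h.x_transcendental (isAlgebraic_of_map ι halg)

/-- **ONE STEP of the tower of good models.** -/
theorem goodModel_step (h : GoodModel Lc Ec Fc R V w x S)
    (hs : StepData ι Lc Ec Fc R V w x Fc' V' G) :
    GoodModel (Lc.map ι) (Ec.map ι) Fc' (R.map ι) V' (ι w) (ι x) (S.map ⟨ι, ι.injective⟩) where
  charZero := by
    have _h0 : CharZero Ω := h.charZero
    exact charZero_of_injective_ringHom ι.injective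
  R_le := by
    rintro _ ⟨r, hr, rfl⟩
    exact ⟨r, h.R_le hr, rfl⟩
  R_total := by
    rintro _ ⟨e, he, rfl⟩
    rcases h.R_total e he with h1 | h1
    · exact Or.inl ⟨e, h1, rfl⟩
    · exact Or.inr ⟨e⁻¹, h1, map_inv₀ ι e⟩
  w_mem := ⟨w, h.w_mem, rfl⟩
  w_ne_zero := (map_ne_zero ι).mpr h.w_ne_zero
  w_inv_not_mem := by
    rw [← map_inv₀, mem_subring_map_iff]
    exact h.w_inv_not_mem
  w_gen := by
    rintro _ ⟨r, hr, rfl⟩ hr'
    rw [← map_inv₀, mem_subring_map_iff] at hr'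
    rw [← map_inv₀, ← map_mul, mem_subring_map_iff]
    exact h.w_gen r hr hr'
  w_discrete := by
    rintro _ ⟨r, hr, rfl⟩ hr0
    have hr0' : r ≠ 0 := fun h0 => hr0 (by rw [h0, map_zero])
    obtain ⟨n, hn1, hn2⟩ := h.w_discrete r hr hr0'
    refine ⟨n, ?_, ?_⟩
    · rw [← map_inv₀, ← map_pow, ← map_mul, mem_subring_map_iff]
      exact hn1
    · rw [← map_inv₀, ← map_pow, ← map_mul, ← map_inv₀, mem_subring_map_iff]
      exact hn2
  residue_perfect := by
    obtain ⟨p, hp, hp1, hp2⟩ := h.residue_perfect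
    refine ⟨p, hp, ?_, ?_⟩
    · rw [← map_natCast ι p, ← map_inv₀, ← map_mul, mem_subring_map_iff]
      exact hp1
    · rintro _ ⟨r, hr, rfl⟩
      obtain ⟨s, hs1, hs2⟩ := hp2 r hr
      refine ⟨ι s, ⟨s, hs1, rfl⟩, ?_⟩
      rw [← map_pow, ← map_sub, ← map_inv₀, ← map_mul, mem_subring_map_iff]
      exact hs2
  E_le_L := by
    rintro _ ⟨e, he, rfl⟩
    exact ⟨e, h.E_le_L he, rfl⟩
  E_le_F := by
    rintro _ ⟨e, he, rfl⟩
    exact hs.F_le ⟨e, h.E_le_F he, rfl⟩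
  L_algebraic := by
    rintro _ ⟨a, ha, rfl⟩
    exact isAlgebraic_map ι (h.L_algebraic a ha)
  L_algClosed := isAlgClosed_map ι h.L_algClosed
  E_closed_in_F := hs.E_closed
  compositum := hs.compositum
  x_mem := hs.F_le ⟨x, h.x_mem, rfl⟩
  x_transcendental := hs.x_transcendental h
  finite := hs.finite' h
  V_le := hs.V_le
  V_total := hs.V_total
  R_le_V := by
    rintro _ ⟨r, hr, rfl⟩
    exact hs.V_le_V' ⟨r, h.R_le_V hr, rfl⟩
  w_inv_not_mem_V := hs.w_inv_not_mem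
  V_gen := hs.V_gen
  x_mem_V := hs.V_le_V' ⟨x, h.x_mem_V, rfl⟩
  gauss := hs.gauss h
  qep_fin := hs.qep h h.x_mem h.qep_fin
  qep_inf := by
    have := hs.qep h (Fc.inv_mem h.x_mem) h.qep_inf
    rwa [map_inv₀] at this
  separable := hs.separable
  S_mem := by
    intro s hs'
    obtain ⟨s₀, hs₀, rfl⟩ := Finset.mem_map.mp hs'
    exact ⟨s₀, h.S_mem s₀ hs₀, rfl⟩
  S_distinct := by
    intro s hs' t ht' hst
    obtain ⟨s₀, hs₀, rfl⟩ := Finset.mem_map.mp hs'
    obtain ⟨t₀, ht₀, rfl⟩ := Finset.mem_map.mp ht'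
    have hne : s₀ ≠ t₀ := fun he => hst (by rw [he])
    exact ⟨(s₀ - t₀)⁻¹, h.S_distinct s₀ hs₀ t₀ ht₀ hne, by
      simp [map_inv₀, map_sub]⟩
  S_unit := by
    intro s hs' hs0
    obtain ⟨s₀, hs₀, rfl⟩ := Finset.mem_map.mp hs'
    have hne : s₀ ≠ 0 := fun he => hs0 (by simp [he])
    exact ⟨s₀⁻¹, h.S_unit s₀ hs₀ hne, by simp [map_inv₀]⟩
  unramified := hs.unramified h

end Step

end Fermat.Agent.S48.H588
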