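import Mathlib
import Fermat.Agent.S18.Alg.Spec

/-!
# Tower A1 (S48 / RES): one step of the tower of good models — basic transport lemmas

`ι : Ω →+* Ω'` is a field embedding (`Ω = F·Q̄`, `Ω' = F'·Q̄`).  We transport the sub-objects of a
`Fermat.Agent.S18.Alg.GoodModel` in `Ω` to `Ω'`.
-/

set_option autoImplicit false

namespace Fermat.Agent.S48.H588

open Fermat.Agent.S18.Alg Polynomial

variable {Ω Ω' : Type*} [Field Ω] [Field Ω'] (ι : Ω →+* Ω')

theorem polyRing_map (R : Subring Ω) (x : Ω) :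
    (polyRing R x).map ι = polyRing (R.map ι) (ι x) := by
  unfold polyRing
  rw [RingHom.map_closure]
  congr 1
  ext z
  simp only [Set.mem_image, Set.mem_union, SetLike.mem_coe, Set.mem_singleton_iff,
    Subring.mem_map]
  constructor
  · rintro ⟨a, ha | ha, rfl⟩
    · exact Or.inl ⟨a, ha, rfl⟩
    · exact Or.inr (by rw [ha])
  · rintro (⟨a, ha, rfl⟩ | rfl)
    · exact ⟨a, Or.inl ha, rfl⟩
    · exact ⟨x, Or.inr rfl, rfl⟩

theorem ratField_map (Ec : Subfield Ω) (x : Ω) :
    (ratField Ec x).map ι = ratField (Ec.map ι) (ι x) := by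
  unfold ratField
  rw [RingHom.map_field_closure]
  congr 1
  ext z
  simp only [Set.mem_image, Set.mem_union, SetLike.mem_coe, Set.mem_singleton_iff,
    Subfield.mem_map]
  constructor
  · rintro ⟨a, ha | ha, rfl⟩
    · exact Or.inl ⟨a, ha, rfl⟩
    · exact Or.inr (by rw [ha])
  · rintro (⟨a, ha, rfl⟩ | rfl)
    · exact ⟨a, Or.inl ha, rfl⟩
    · exact ⟨x, Or.inr rfl, rfl⟩

/-- Integrality over a subring is preserved by a ring homomorphism. -/
theorem isIntegral_map_of_isIntegral {P : Subring Ω} {b : Ω} (hb : IsIntegral P b) :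
    IsIntegral (P.map ι) (ι b) := by
  obtain ⟨p, hp, hpb⟩ := hb
  let φ : P →+* P.map ι :=
    { toFun := fun a => ⟨ι a, Subring.mem_map.mpr ⟨a, a.2, rfl⟩⟩
      map_one' := by ext; simp
      map_mul' := fun a b => by ext; simp
      map_zero' := by ext; simp
      map_add' := fun a b => by ext; simp }
  refine ⟨p.map φ, hp.map φ, ?_⟩
  have h1 : (algebraMap (P.map ι) Ω').comp φ = ι.comp (algebraMap P Ω) := by
    ext a; rfl
  rw [eval₂_map, h1, ← hom_eval₂, hpb, map_zero]

/-- Integrality over a subring is reflected by an (injective) field homomorphism. -/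
theorem isIntegral_of_isIntegral_map {P : Subring Ω} {b : Ω}
    (hb : IsIntegral (P.map ι) (ι b)) : IsIntegral P b := by
  obtain ⟨p, hp, hpb⟩ := hb
  have hsurj : ∀ c : P.map ι, ∃ a : P, ι a = c := fun c => by
    obtain ⟨a, ha, h⟩ := Subring.mem_map.mp c.2
    exact ⟨⟨a, ha⟩, h⟩
  choose s hs using hsurj
  -- lift the polynomial coefficientwise
  let q : Polynomial P := ∑ i ∈ Finset.range (p.natDegree), monomial i (s (p.coeff i))
    + monomial p.natDegree 1
  have hqdeg : (∑ i ∈ Finset.range (p.natDegree), monomial i (s (p.coeff i))).degree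
      < p.natDegree := by
    refine (degree_sum_le _ _).trans_lt ?_
    rw [Finset.sup_lt_iff (WithBot.bot_lt_coe _)]
    intro i hi
    refine (degree_monomial_le _ _).trans_lt ?_
    exact_mod_cast Finset.mem_range.mp hi
  have hq : q.Monic := by
    have : q = monomial p.natDegree 1 +
        ∑ i ∈ Finset.range (p.natDegree), monomial i (s (p.coeff i)) := add_comm _ _
    rw [this, ← X_pow_eq_monomial]
    exact monic_X_pow_add hqdeg
  refine ⟨q, hq, ?_⟩
  apply ι.injective
  rw [map_zero, hom_eval₂]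
  have key : eval₂ (ι.comp (algebraMap P Ω)) (ι b) q = eval₂ (algebraMap (P.map ι) Ω') (ι b) p := by
    conv_rhs => rw [hp.as_sum]
    simp only [q, eval₂_add, eval₂_finsetSum, eval₂_monomial, eval₂_mul, eval₂_C, eval₂_X_pow,
      map_one, one_mul]
    rw [add_comm]
    congr 1
    refine Finset.sum_congr rfl (fun i _ => ?_)
    congr 1
    exact hs (p.coeff i)
  rw [key, hpb]

theorem chart_map {Fc : Subfield Ω} {R : Subring Ω} {x b : Ω} (hb : b ∈ chart Fc R x) :
    ι b ∈ chart (Fc.map ι) (R.map ι) (ι x) := by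
  refine ⟨Subfield.mem_map.mpr ⟨b, hb.1, rfl⟩, ?_⟩
  rw [← polyRing_map]
  exact isIntegral_map_of_isIntegral ι hb.2

theorem mem_chart_of_map {Fc : Subfield Ω} {R : Subring Ω} {x b : Ω} (hbF : b ∈ Fc)
    (hb : IsIntegral (polyRing (R.map ι) (ι x)) (ι b)) : b ∈ chart Fc R x := by
  refine ⟨hbF, ?_⟩
  rw [← polyRing_map] at hb
  exact isIntegral_of_isIntegral_map ι hb

end Fermat.Agent.S48.H588
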