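import Fermat.Agent.S48.H588.Step
import Fermat.Agent.S18.H107.Base

/-!
# Tower A1 (S48 / RES): one step of the tower of good models, RAMIFIED version (helper588)

`Step.lean` (`goodModel_step`) asks that `Ω'/Ω` be unramified at every place over `Lc`
(`StepData.unram`).  The steps of Tower A1 are ramified over the branch values
(`F₁(M)/F₀(M)`: elliptic points and some cusps), and for `ℓ = 2, 3` the base at the coordinate
`j` is only a `H107.BaseModel107` (= `Alg.GoodModel` without the four branch fields, which is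
what `S18/H24/NodeMod.lean : baseModel_j` provides for EVERY `ℓ ∤ M`).  This file provides

* `StepCore`          : `StepData` without the field `unram`;
* `baseModel_stepU`   : `BaseModel107` (base) + `StepCore` ⟹ `BaseModel107` (top)
                        (`qep_fin`, `qep_inf` climb by Galois descent, `H588.qep_of_galois`);
* `goodModel_stepU`   : `GoodModel` (base) + `StepCore` + `unramified` (top) ⟹ `GoodModel` (top);
* `liftModel`, `goodFamily_stepU` : the same for a whole `Alg.GoodFamily`, so that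
  `Alg.AlgMainStatement` (proved for all arguments in `S18/H94/NodeAlg.lean`) applies at the top;
* **node I-S28 of IGUSA1** (`IgusaBase`, `igusaBase_of_baseModel`): the fields
  `R_le R_total w_mem w_ne_zero w_inv_not_mem w_discrete qep0` of `H856.IgusaData` for
  `F0 = ι(Fc)`, `R = ι(R)`, `w = ι w`, `x = ι x`, from a `BaseModel107` of the base (S18
  `node_mod`) and ANY subring `V'` of the big field with `ι(V) ⊆ V'`, `(ι w)⁻¹ ∉ V'`
  (e.g. the Gauss ring of the full-level field, `ι = (q ↦ X^M)`).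
-/

set_option autoImplicit false

namespace Fermat.Agent.S48.H588

open Fermat.Agent.S18.Alg Fermat.Agent.S18.H107 Polynomial

variable {Ω Ω' : Type*} [Field Ω] [Field Ω']

/-- `StepData` without `unram` (see the module docstring). -/
structure StepCore (ι : Ω →+* Ω') (Lc Ec Fc : Subfield Ω) (R V : Subring Ω) (w x : Ω)
    (Fc' : Subfield Ω') (V' : Subring Ω') (G : Subgroup (Ω' ≃+* Ω')) : Prop where
  F_le : Fc.map ι ≤ Fc'
  compositum : Subfield.closure ((Fc' : Set Ω') ∪ ((Lc.map ι : Subfield Ω') : Set Ω')) = ⊤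
  E_closed : ∀ f ∈ Fc', IsAlgebraic (Ec.map ι) f → f ∈ Ec.map ι
  finite : ∃ s : Finset Ω', (s : Set Ω') ⊆ Fc' ∧
    ∀ f ∈ Fc', f ∈ Submodule.span (Fc.map ι) (s : Set Ω')
  V_le : (V' : Set Ω') ⊆ Fc'
  V_total : ∀ f ∈ Fc', f ∈ V' ∨ f⁻¹ ∈ V'
  V_le_V' : V.map ι ≤ V'
  w_inv_not_mem : (ι w)⁻¹ ∉ V'
  V_gen : ∀ f ∈ V', f⁻¹ ∉ V' → f * (ι w)⁻¹ ∈ V'
  separable : ∀ f ∈ V', ∃ P : Polynomial Ω', (∀ i, P.coeff i ∈ polyRing (R.map ι) (ι x)) ∧
    P.eval f * (ι w)⁻¹ ∈ V' ∧ (Polynomial.derivative P).eval f ≠ 0 ∧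
    ((Polynomial.derivative P).eval f)⁻¹ ∈ V'
  G_finite : Finite G
  G_fix : ∀ g ∈ G, ∀ a ∈ Fc.map ι, (g : Ω' ≃+* Ω') a = a
  G_F : ∀ g ∈ G, ∀ f ∈ Fc', (g : Ω' ≃+* Ω') f ∈ Fc'
  G_V : ∀ g ∈ G, ∀ f ∈ V', (g : Ω' ≃+* Ω') f ∈ V'
  G_inv : ∀ f ∈ Fc', (∀ g ∈ G, (g : Ω' ≃+* Ω') f = f) → f ∈ Fc.map ι

section StepU

variable {ι : Ω →+* Ω'} {Lc Ec Fc : Subfield Ω} {R V : Subring Ω} {w x : Ω} {S : Finset Ω}
  {Fc' : Subfield Ω'} {V' : Subring Ω'} {G : Subgroup (Ω' ≃+* Ω')}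

theorem StepData.toCore (hs : StepData ι Lc Ec Fc R V w x Fc' V' G) :
    StepCore ι Lc Ec Fc R V w x Fc' V' G :=
  { F_le := hs.F_le, compositum := hs.compositum, E_closed := hs.E_closed, finite := hs.finite,
    V_le := hs.V_le, V_total := hs.V_total, V_le_V' := hs.V_le_V',
    w_inv_not_mem := hs.w_inv_not_mem, V_gen := hs.V_gen, separable := hs.separable,
    G_finite := hs.G_finite, G_fix := hs.G_fix, G_F := hs.G_F, G_V := hs.G_V, G_inv := hs.G_inv }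

theorem baseModel_R_le_F588 (h : BaseModel107 Lc Ec Fc R V w x) : ∀ r ∈ R, r ∈ Fc :=
  fun _ hr => h.E_le_F (h.R_le hr)

theorem baseModel_w_mem_V588 (h : BaseModel107 Lc Ec Fc R V w x) : w ∈ V := h.R_le_V h.w_mem

/-- `V' ∩ ι(Fc) = ι(V)`. -/
theorem StepCore.mem_V_of_map_mem (hs : StepCore ι Lc Ec Fc R V w x Fc' V' G)
    (h : BaseModel107 Lc Ec Fc R V w x) {a : Ω} (haF : a ∈ Fc) (ha : ι a ∈ V') : a ∈ V := by
  rcases h.V_total a haF with h1 | h1
  · exact h1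
  · by_contra hV
    have h2 : (a⁻¹)⁻¹ ∉ V := by rwa [inv_inv]
    have h3 := h.V_gen a⁻¹ h1 h2
    have ha0 : a ≠ 0 := fun h0 => hV (by rw [h0]; exact V.zero_mem)
    have h4 : ι (a⁻¹ * w⁻¹) ∈ V' := hs.V_le_V' ⟨_, h3, rfl⟩
    have h5 : ι a * ι (a⁻¹ * w⁻¹) ∈ V' := V'.mul_mem ha h4
    have h6 : ι a * ι (a⁻¹ * w⁻¹) = (ι w)⁻¹ := by
      rw [← map_mul, ← mul_assoc, mul_inv_cancel₀ ha0, one_mul, map_inv₀]
    rw [h6] at h5
    exact hs.w_inv_not_mem h5

theorem baseModel_polyRing_le588 (h : BaseModel107 Lc Ec Fc R V w x) {x₀ : Ω} (hx₀ : x₀ ∈ Fc) :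
    polyRing R x₀ ≤ Fc.toSubring := by
  unfold polyRing
  rw [Subring.closure_le]
  rintro z (hz | hz)
  · exact (baseModel_R_le_F588 h) z hz
  · rw [Set.mem_singleton_iff] at hz
    rw [hz]; exact hx₀

/-- Iterating the `q`-expansion principle of the base. -/
theorem baseModel_mem_chart_of_mul_pow588 (h : BaseModel107 Lc Ec Fc R V w x) {x₀ : Ω}
    (hqep : ∀ b ∈ chart Fc R x₀, b * w⁻¹ ∈ V → b * w⁻¹ ∈ chart Fc R x₀)
    {a : Ω} (haV : a ∈ V) : ∀ j : ℕ, a * w ^ j ∈ chart Fc R x₀ → a ∈ chart Fc R x₀ := by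
  intro j
  induction j with
  | zero => intro hj; simpa using hj
  | succ j ih =>
    intro hj
    apply ih
    have h1 : a * w ^ (j + 1) * w⁻¹ = a * w ^ j := by
      rw [pow_succ, mul_assoc, mul_assoc, mul_inv_cancel₀ h.w_ne_zero, mul_one]
    have h2 : a * w ^ (j + 1) * w⁻¹ ∈ V := by
      rw [h1]; exact V.mul_mem haV (V.pow_mem (baseModel_w_mem_V588 h) j)
    have := hqep _ hj h2
    rwa [h1] at this

/-- **The `q`-expansion principle climbs the step** (for any coordinate `x₀ ∈ Fc`). -/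
theorem StepCore.qep (hs : StepCore ι Lc Ec Fc R V w x Fc' V' G)
    (h : BaseModel107 Lc Ec Fc R V w x) {x₀ : Ω} (hx₀ : x₀ ∈ Fc)
    (hqep : ∀ b ∈ chart Fc R x₀, b * w⁻¹ ∈ V → b * w⁻¹ ∈ chart Fc R x₀) :
    ∀ b ∈ chart Fc' (R.map ι) (ι x₀), b * (ι w)⁻¹ ∈ V' →
      b * (ι w)⁻¹ ∈ chart Fc' (R.map ι) (ι x₀) := by
  intro b hb hbV
  have hwF' : ι w ∈ Fc' := hs.F_le ⟨w, (baseModel_R_le_F588 h) w h.w_mem, rfl⟩
  refine ⟨Fc'.mul_mem hb.1 (Fc'.inv_mem hwF'), ?_⟩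
  have _hfin := hs.G_finite
  have hP : polyRing (R.map ι) (ι x₀) ≤ (Fc.map ι).toSubring := by
    rw [← polyRing_map]
    intro z hz
    obtain ⟨a, ha, rfl⟩ := hz
    exact ⟨a, baseModel_polyRing_le588 h hx₀ ha, rfl⟩
  refine qep_of_galois (polyRing (R.map ι) (ι x₀)) (Fc.map ι) Fc' V' (ι w)
    ((map_ne_zero ι).mpr h.w_ne_zero) hwF' G
    (fun g hg a ha => hs.G_fix g hg a (hP ha))
    (fun g hg => hs.G_fix g hg _ ⟨w, (baseModel_R_le_F588 h) w h.w_mem, rfl⟩)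
    hs.G_F hs.G_V hs.G_inv ?_ hb.1 hb.2 hbV
  rintro c ⟨a, haF, rfl⟩ hcV ⟨j, hj⟩
  have haV : a ∈ V := hs.mem_V_of_map_mem h haF hcV
  have h1 : a * w ^ j ∈ chart Fc R x₀ := by
    refine mem_chart_of_map ι (Fc.mul_mem haF (Fc.pow_mem ((baseModel_R_le_F588 h) w h.w_mem) j)) ?_
    rwa [map_mul, map_pow]
  have h2 := baseModel_mem_chart_of_mul_pow588 h hqep haV j h1
  rw [← polyRing_map]
  exact isIntegral_map_of_isIntegral ι h2.2

/-- The Gauss property climbs the step. -/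
theorem StepCore.gauss (hs : StepCore ι Lc Ec Fc R V w x Fc' V' G)
    (h : BaseModel107 Lc Ec Fc R V w x) :
    ∀ P : Polynomial Ω', (∀ i, P.coeff i ∈ R.map ι) →
      (∃ i, P.coeff i ≠ 0 ∧ (P.coeff i)⁻¹ ∈ R.map ι) → (P.eval (ι x))⁻¹ ∈ V' := by
  intro P hP ⟨i, hi0, hi⟩
  have hlift : P ∈ Polynomial.lifts ι := by
    rw [Polynomial.lifts_iff_coeff_lifts]
    intro n
    obtain ⟨a, _, ha⟩ := hP n
    exact ⟨a, ha⟩
  obtain ⟨Q, rfl⟩ := (Polynomial.mem_lifts _).mp hlift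
  have hQ : ∀ n, Q.coeff n ∈ R := by
    intro n
    have := hP n
    rw [coeff_map] at this
    exact (mem_subring_map_iff ι).mp this
  have hQi : Q.coeff i ≠ 0 ∧ (Q.coeff i)⁻¹ ∈ R := by
    rw [coeff_map] at hi0 hi
    refine ⟨fun h0 => hi0 (by rw [h0, map_zero]), ?_⟩
    rw [← map_inv₀] at hi
    exact (mem_subring_map_iff ι).mp hi
  have h1 := h.gauss Q hQ ⟨i, hQi⟩
  have h2 : eval₂ ι (ι x) Q = ι (eval x Q) := by
    have := Polynomial.hom_eval₂ Q (RingHom.id Ω) ι x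
    rw [RingHom.comp_id, eval₂_id] at this
    exact this.symm
  rw [eval_map, h2, ← map_inv₀]
  exact hs.V_le_V' ⟨_, h1, rfl⟩

/-- Finiteness climbs the step. -/
theorem StepCore.finite' (hs : StepCore ι Lc Ec Fc R V w x Fc' V' G)
    (h : BaseModel107 Lc Ec Fc R V w x) :
    ∃ s : Finset Ω', (s : Set Ω') ⊆ Fc' ∧
      ∀ f ∈ Fc', f ∈ Submodule.span (ratField (Ec.map ι) (ι x)) (s : Set Ω') := by
  classical
  obtain ⟨s₀, hs₀F, hs₀⟩ := h.finite
  obtain ⟨s₁, hs₁F, hs₁⟩ := hs.finite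
  refine ⟨(s₀.image ι ×ˢ s₁).image (fun ab => ab.1 * ab.2), ?_, ?_⟩
  · intro z hz
    simp only [Finset.coe_image, Set.mem_image, Finset.mem_coe, Finset.mem_product,
      Finset.mem_image, Prod.exists] at hz
    obtain ⟨a, b, ⟨⟨a₀, ha₀, rfl⟩, hb⟩, rfl⟩ := hz
    exact Fc'.mul_mem (hs.F_le ⟨a₀, hs₀F ha₀, rfl⟩) (hs₁F hb)
  · intro f hf
    set K' := ratField (Ec.map ι) (ι x) with hK'
    set T : Submodule K' Ω' :=
      Submodule.span K' (((s₀.image ι ×ˢ s₁).image (fun ab => ab.1 * ab.2) : Finset Ω') : Set Ω')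
      with hT
    -- step 1: `ι a * b ∈ T` for `a ∈ Fc`, `b ∈ s₁`
    have step1 : ∀ a ∈ Fc, ∀ b ∈ s₁, ι a * b ∈ T := by
      intro a ha b hb
      have ha' := hs₀ a ha
      -- induct on the span membership of `a`
      refine Submodule.span_induction (p := fun a _ => ι a * b ∈ T) ?_ ?_ ?_ ?_ ha'
      · intro a₀ ha₀
        refine Submodule.subset_span ?_
        simp only [Finset.coe_image, Set.mem_image, Finset.mem_coe, Finset.mem_product,
          Finset.mem_image, Prod.exists]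
        exact ⟨ι a₀, b, ⟨⟨a₀, ha₀, rfl⟩, hb⟩, rfl⟩
      · simp
      · intro y z _ _ hy hz
        rw [map_add, add_mul]
        exact T.add_mem hy hz
      · intro c y _ hy
        have hc : ι (c : Ω) ∈ K' := by
          rw [hK', ← ratField_map]
          exact ⟨c, c.2, rfl⟩
        have : ι (c • y) * b = (⟨ι (c : Ω), hc⟩ : K') • (ι y * b) := by
          rw [Subfield.smul_def, Subfield.smul_def, smul_eq_mul, smul_eq_mul, map_mul, mul_assoc]
        rw [this]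
        exact T.smul_mem _ hy
    -- `T` is stable under multiplication by `ι(Fc)`
    have stab : ∀ a ∈ Fc, ∀ t ∈ T, ι a * t ∈ T := by
      intro a ha t ht
      refine Submodule.span_induction (p := fun t _ => ι a * t ∈ T) ?_ ?_ ?_ ?_ ht
      · intro z hz
        simp only [Finset.coe_image, Set.mem_image, Finset.mem_coe, Finset.mem_product,
          Finset.mem_image, Prod.exists] at hz
        obtain ⟨_, b, ⟨⟨a₀, ha₀, rfl⟩, hb⟩, rfl⟩ := hz
        have := step1 (a * a₀) (Fc.mul_mem ha (hs₀F ha₀)) b hb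
        rwa [map_mul, mul_assoc] at this
      · simp
      · intro y z _ _ hy hz
        rw [mul_add]
        exact T.add_mem hy hz
      · intro c y _ hy
        have : ι a * c • y = c • (ι a * y) := by
          rw [Subfield.smul_def, Subfield.smul_def, smul_eq_mul, smul_eq_mul]; ring
        rw [this]
        exact T.smul_mem _ hy
    -- step 2: `f ∈ span_{ι Fc} s₁`
    have hf' := hs₁ f hf
    refine Submodule.span_induction (p := fun f _ => f ∈ T) ?_ ?_ ?_ ?_ hf'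
    · intro b hb
      have := step1 1 Fc.one_mem b hb
      simpa using this
    · exact T.zero_mem
    · intro y z _ _ hy hz
      exact T.add_mem hy hz
    · intro c y _ hy
      obtain ⟨a, ha, hac⟩ := Subfield.mem_map.mp c.2
      have : c • y = ι a * y := by
        rw [Subfield.smul_def, smul_eq_mul, hac]
      rw [this]
      exact stab a ha y hy

/-- **ONE STEP of the tower of base models** (= good models without the branch fields; no
hypothesis on the ramification of `Ω'/Ω`). -/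
theorem baseModel_stepU (h : BaseModel107 Lc Ec Fc R V w x)
    (hs : StepCore ι Lc Ec Fc R V w x Fc' V' G) :
    BaseModel107 (Lc.map ι) (Ec.map ι) Fc' (R.map ι) V' (ι w) (ι x) where
  charZero := by
    have _h0 : CharZero Ω := h.charZero
    exact charZero_of_injective_ringHom ι.injective
  R_le := by
    rintro _ ⟨r, hr, rfl⟩
    exact ⟨r, h.R_le hr, rfl⟩
  R_total := by
    rintro _ ⟨e, he, rfl⟩
    rcases h.R_total e he with h1 | h1
    · exact Or.inl ⟨e, h1, rfl⟩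
    · exact Or.inr ⟨e⁻¹, h1, map_inv₀ ι e⟩
  w_mem := ⟨w, h.w_mem, rfl⟩
  w_ne_zero := (map_ne_zero ι).mpr h.w_ne_zero
  w_inv_not_mem := by
    rw [← map_inv₀, mem_subring_map_iff]
    exact h.w_inv_not_mem
  w_gen := by
    rintro _ ⟨r, hr, rfl⟩ hr'
    rw [← map_inv₀, mem_subring_map_iff] at hr'
    rw [← map_inv₀, ← map_mul, mem_subring_map_iff]
    exact h.w_gen r hr hr'
  w_discrete := by
    rintro _ ⟨r, hr, rfl⟩ hr0
    have hr0' : r ≠ 0 := fun h0 => hr0 (by rw [h0, map_zero])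
    obtain ⟨n, hn1, hn2⟩ := h.w_discrete r hr hr0'
    refine ⟨n, ?_, ?_⟩
    · rw [← map_inv₀, ← map_pow, ← map_mul, mem_subring_map_iff]
      exact hn1
    · rw [← map_inv₀, ← map_pow, ← map_mul, ← map_inv₀, mem_subring_map_iff]
      exact hn2
  residue_perfect := by
    obtain ⟨p, hp, hp1, hp2⟩ := h.residue_perfect
    refine ⟨p, hp, ?_, ?_⟩
    · rw [← map_natCast ι p, ← map_inv₀, ← map_mul, mem_subring_map_iff]
      exact hp1
    · rintro _ ⟨r, hr, rfl⟩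
      obtain ⟨s, hs1, hs2⟩ := hp2 r hr
      refine ⟨ι s, ⟨s, hs1, rfl⟩, ?_⟩
      rw [← map_pow, ← map_sub, ← map_inv₀, ← map_mul, mem_subring_map_iff]
      exact hs2
  E_le_L := by
    rintro _ ⟨e, he, rfl⟩
    exact ⟨e, h.E_le_L he, rfl⟩
  E_le_F := by
    rintro _ ⟨e, he, rfl⟩
    exact hs.F_le ⟨e, h.E_le_F he, rfl⟩
  L_algebraic := by
    rintro _ ⟨a, ha, rfl⟩
    exact isAlgebraic_map ι (h.L_algebraic a ha)
  L_algClosed := isAlgClosed_map ι h.L_algClosed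
  E_closed_in_F := hs.E_closed
  compositum := hs.compositum
  x_mem := hs.F_le ⟨x, h.x_mem, rfl⟩
  x_transcendental := fun halg => h.x_transcendental (isAlgebraic_of_map ι halg)
  finite := hs.finite' h
  V_le := hs.V_le
  V_total := hs.V_total
  R_le_V := by
    rintro _ ⟨r, hr, rfl⟩
    exact hs.V_le_V' ⟨r, h.R_le_V hr, rfl⟩
  w_inv_not_mem_V := hs.w_inv_not_mem
  V_gen := hs.V_gen
  x_mem_V := hs.V_le_V' ⟨x, h.x_mem_V, rfl⟩
  gauss := hs.gauss h
  qep_fin := hs.qep h h.x_mem h.qep_fin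
  qep_inf := by
    have := hs.qep h (Fc.inv_mem h.x_mem) h.qep_inf
    rwa [map_inv₀] at this
  separable := hs.separable


/-- **ONE STEP of the tower of good models**, with `unramified` supplied directly at the top
(for steps that are ramified over `Lc`, e.g. `F₁(M)/F₀(M)` or the full-level field). -/
theorem goodModel_stepU (h : GoodModel Lc Ec Fc R V w x S)
    (hs : StepCore ι Lc Ec Fc R V w x Fc' V' G)
    (hunr : ∀ O : ValuationSubring Ω', (∀ a ∈ Lc.map ι, a ∈ O) → ∀ c ∈ Lc.map ι,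
      c ∉ S.map ⟨ι, ι.injective⟩ → ι x - c ∈ O → (ι x - c)⁻¹ ∉ O →
      ∀ t ∈ O, t⁻¹ ∉ O → t * (ι x - c)⁻¹ ∈ O) :
    GoodModel (Lc.map ι) (Ec.map ι) Fc' (R.map ι) V' (ι w) (ι x) (S.map ⟨ι, ι.injective⟩) := by
  refine (baseModel_stepU (baseModel_of_goodModel107 h) hs).toGoodModel _ ?_ ?_ ?_ hunr
  · intro s hs'
    obtain ⟨s₀, hs₀, rfl⟩ := Finset.mem_map.mp hs'
    exact ⟨s₀, h.S_mem s₀ hs₀, rfl⟩
  · intro s hs' t ht' hst
    obtain ⟨s₀, hs₀, rfl⟩ := Finset.mem_map.mp hs'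
    obtain ⟨t₀, ht₀, rfl⟩ := Finset.mem_map.mp ht'
    have hne : s₀ ≠ t₀ := fun he => hst (by rw [he])
    exact ⟨(s₀ - t₀)⁻¹, h.S_distinct s₀ hs₀ t₀ ht₀ hne, by
      simp [map_inv₀, map_sub]⟩
  · intro s hs' hs0
    obtain ⟨s₀, hs₀, rfl⟩ := Finset.mem_map.mp hs'
    have hne : s₀ ≠ 0 := fun he => hs0 (by simp [he])
    exact ⟨s₀⁻¹, h.S_unit s₀ hs₀ hne, by simp [map_inv₀]⟩

end StepU

section Family

variable (ι : Ω →+* Ω')

/-- The lifted model: constants transported by `ι`, function field and Gauss ring given by `Φ`. -/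
def liftModel (Φ : Model Ω → Subfield Ω' × Subring Ω') (p : Model Ω) : Model Ω' :=
  (p.1.map ι, (Φ p).1, p.2.2.1.map ι, (Φ p).2, ι p.2.2.2.2)

variable {ι}

/-- **ONE STEP for a directed family of good models.**  `Φ p = (Fc', V')` is the function field
and the Gauss ring over the member `p`, monotone in `p`; each member satisfies `StepCore`
(with its own group `G p`); `unramified` is supplied at the top. -/
theorem goodFamily_stepU {Lc : Subfield Ω} {x : Ω} {S : Finset Ω} {𝓕 : Set (Model Ω)}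
    (h : GoodFamily Lc x S 𝓕) (Φ : Model Ω → Subfield Ω' × Subring Ω')
    (G : Model Ω → Subgroup (Ω' ≃+* Ω'))
    (hs : ∀ p ∈ 𝓕, StepCore ι Lc p.1 p.2.1 p.2.2.1 p.2.2.2.1 p.2.2.2.2 x (Φ p).1 (Φ p).2 (G p))
    (hmono : ∀ p ∈ 𝓕, ∀ p' ∈ 𝓕, Model.le p p' → (Φ p).1 ≤ (Φ p').1 ∧ (Φ p).2 ≤ (Φ p').2)
    (hunr : ∀ O : ValuationSubring Ω', (∀ a ∈ Lc.map ι, a ∈ O) → ∀ c ∈ Lc.map ι,
      c ∉ S.map ⟨ι, ι.injective⟩ → ι x - c ∈ O → (ι x - c)⁻¹ ∉ O →
      ∀ t ∈ O, t⁻¹ ∉ O → t * (ι x - c)⁻¹ ∈ O) :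
    GoodFamily (Lc.map ι) (ι x) (S.map ⟨ι, ι.injective⟩) (liftModel ι Φ '' 𝓕) where
  good := by
    rintro _ ⟨p, hp, rfl⟩
    exact goodModel_stepU (h.good p hp) (hs p hp) hunr
  enlarge := by
    classical
    rintro _ ⟨p, hp, rfl⟩ T hT
    -- pull `T` back to `Lc`
    have hex : ∀ a ∈ T, ∃ a₀ ∈ Lc, ι a₀ = a := fun a ha => hT a ha
    choose! f hf using hex
    obtain ⟨p', hp', hle, hmem⟩ := h.enlarge p hp (T.image f) (by
      intro a ha
      obtain ⟨b, hb, rfl⟩ := Finset.mem_image.mp ha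
      exact (hf b hb).1)
    refine ⟨liftModel ι Φ p', ⟨p', hp', rfl⟩, ?_, ?_⟩
    · obtain ⟨h1, h2, h3, h4⟩ := hle
      obtain ⟨m1, m2⟩ := hmono p hp p' hp' ⟨h1, h2, h3, h4⟩
      refine ⟨?_, m1, ?_, m2⟩
      · rintro _ ⟨e, he, rfl⟩
        exact ⟨e, h1 he, rfl⟩
      · rintro _ ⟨e, he, rfl⟩
        exact ⟨e, h3 he, rfl⟩
    · intro a ha
      refine ⟨f a, hmem _ (Finset.mem_image_of_mem f ha), (hf a ha).2⟩

end Family

/-! ### Node I-S28 of IGUSA1: the base fields of `H856.IgusaData` from S18 `node_mod` -/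

section IgusaBase

variable {ι : Ω →+* Ω'} {Lc Ec Fc : Subfield Ω} {R V : Subring Ω} {w x : Ω}

/-- `V' ∩ ι(Fc) = ι(V)` for ANY subring `V' ⊇ ι(V)` with `(ι w)⁻¹ ∉ V'`. -/
theorem baseModel_mem_V_of_map_mem588 (h : BaseModel107 Lc Ec Fc R V w x) {V' : Subring Ω'}
    (hV : V.map ι ≤ V') (hw : (ι w)⁻¹ ∉ V') {a : Ω} (haF : a ∈ Fc) (ha : ι a ∈ V') : a ∈ V := by
  rcases h.V_total a haF with h1 | h1
  · exact h1
  · by_contra hV0
    have h2 : (a⁻¹)⁻¹ ∉ V := by rwa [inv_inv]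
    have h3 := h.V_gen a⁻¹ h1 h2
    have ha0 : a ≠ 0 := fun h0 => hV0 (by rw [h0]; exact V.zero_mem)
    have h4 : ι (a⁻¹ * w⁻¹) ∈ V' := hV ⟨_, h3, rfl⟩
    have h5 : ι a * ι (a⁻¹ * w⁻¹) ∈ V' := V'.mul_mem ha h4
    have h6 : ι a * ι (a⁻¹ * w⁻¹) = (ι w)⁻¹ := by
      rw [← map_mul, ← mul_assoc, mul_inv_cancel₀ ha0, one_mul, map_inv₀]
    rw [h6] at h5
    exact hw h5

/-- **Transport of the `q`-expansion principle** along `ι` (any coordinate `x₀`). -/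
theorem baseModel_qep_map588 (h : BaseModel107 Lc Ec Fc R V w x) {V' : Subring Ω'}
    (hV : V.map ι ≤ V') (hw : (ι w)⁻¹ ∉ V') {x₀ : Ω}
    (hqep : ∀ b ∈ chart Fc R x₀, b * w⁻¹ ∈ V → b * w⁻¹ ∈ chart Fc R x₀) :
    ∀ b ∈ chart (Fc.map ι) (R.map ι) (ι x₀), b * (ι w)⁻¹ ∈ V' →
      b * (ι w)⁻¹ ∈ chart (Fc.map ι) (R.map ι) (ι x₀) := by
  rintro _ ⟨⟨b, hbF, rfl⟩, hbint⟩ hbV
  have hwF : w ∈ Fc := baseModel_R_le_F588 h w h.w_mem
  have hb : b ∈ chart Fc R x₀ := mem_chart_of_map ι hbF hbint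
  have h1 : ι (b * w⁻¹) ∈ V' := by rwa [map_mul, map_inv₀]
  have h2 : b * w⁻¹ ∈ V :=
    baseModel_mem_V_of_map_mem588 h hV hw (Fc.mul_mem hbF (Fc.inv_mem hwF)) h1
  have h3 := chart_map ι (hqep b hb h2)
  rwa [map_mul, map_inv₀] at h3

/-- The fields of `H856.IgusaData` that come from the base (`Γ₀`-level) model. -/
structure IgusaBase (Ec F0 : Subfield Ω') (R V : Subring Ω') (w x : Ω') : Prop where
  R_le : ∀ r ∈ R, r ∈ Ec
  R_total : ∀ e ∈ Ec, e ∈ R ∨ e⁻¹ ∈ R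
  w_mem : w ∈ R
  w_ne_zero : w ≠ 0
  w_inv_not_mem : w⁻¹ ∉ R
  w_gen : ∀ r ∈ R, r⁻¹ ∉ R → r * w⁻¹ ∈ R
  w_discrete : ∀ r ∈ R, r ≠ 0 → ∃ n : ℕ, r * (w⁻¹) ^ n ∈ R ∧ (r * (w⁻¹) ^ n)⁻¹ ∈ R
  E_le_F0 : Ec ≤ F0
  x_mem_F0 : x ∈ F0
  x_transcendental : Transcendental R x
  R_le_V : R ≤ V
  x_mem_V : x ∈ V
  V_total_F0 : ∀ f ∈ F0, f ∈ V ∨ f⁻¹ ∈ V
  gauss : ∀ P : Polynomial Ω', (∀ i, P.coeff i ∈ R) → (∃ i, P.coeff i ≠ 0 ∧ (P.coeff i)⁻¹ ∈ R) →
    (P.eval x)⁻¹ ∈ V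
  qep0 : ∀ b ∈ chart F0 R x, b * w⁻¹ ∈ V → b * w⁻¹ ∈ chart F0 R x
  qep0_inf : ∀ b ∈ chart F0 R x⁻¹, b * w⁻¹ ∈ V → b * w⁻¹ ∈ chart F0 R x⁻¹

/-- `x` transcendental over `Lc` ⟹ `ι x` transcendental over (the subring) `ι(R)`. -/
theorem baseModel_transcendental_map588 (h : BaseModel107 Lc Ec Fc R V w x) :
    Transcendental (R.map ι) (ι x) := by
  intro halg
  apply h.x_transcendental
  apply isAlgebraic_of_map ι
  have hle : ∀ a : R.map ι, (a : Ω') ∈ Lc.map ι := by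
    rintro ⟨_, r, hr, rfl⟩
    exact ⟨r, h.E_le_L (h.R_le hr), rfl⟩
  let f : (R.map ι) →+* (Lc.map ι) :=
    { toFun := fun a => ⟨a, hle a⟩
      map_one' := rfl
      map_mul' := fun _ _ => rfl
      map_zero' := rfl
      map_add' := fun _ _ => rfl }
  have hf : Function.Injective f := by
    intro a b hab
    have := congrArg (fun c : Lc.map ι => (c : Ω')) hab
    exact Subtype.ext this
  have h1 := IsAlgebraic.ringHom_of_comp_eq (A := Ω') (B := Ω') f (RingHom.id Ω') halg hf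
    (by ext; rfl)
  simpa using h1

/-- **Node I-S28.**  The base fields of `H856.IgusaData` from a `BaseModel107` of the
`Γ₀`-level field (S18 `node_mod`, e.g. `S18.H24.baseModel_j` for the coordinate `j` and every
`ℓ ∤ M`), for ANY ring hom `ι` into the big field (e.g. `q ↦ X^M`) and ANY subring `V'` of the
big field with `ι(V) ⊆ V'` and `(ι w)⁻¹ ∉ V'` (e.g. the Gauss ring of the full-level field). -/
theorem igusaBase_of_baseModel (h : BaseModel107 Lc Ec Fc R V w x) (ι : Ω →+* Ω')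
    {V' : Subring Ω'} (hV : V.map ι ≤ V') (hw : (ι w)⁻¹ ∉ V') :
    IgusaBase (Ec.map ι) (Fc.map ι) (R.map ι) V' (ι w) (ι x) where
  R_le := by
    rintro _ ⟨r, hr, rfl⟩
    exact ⟨r, h.R_le hr, rfl⟩
  R_total := by
    rintro _ ⟨e, he, rfl⟩
    rcases h.R_total e he with h1 | h1
    · exact Or.inl ⟨e, h1, rfl⟩
    · exact Or.inr ⟨e⁻¹, h1, map_inv₀ ι e⟩
  w_mem := ⟨w, h.w_mem, rfl⟩
  w_ne_zero := (map_ne_zero ι).mpr h.w_ne_zero
  w_inv_not_mem := by
    rw [← map_inv₀, mem_subring_map_iff]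
    exact h.w_inv_not_mem
  w_gen := by
    rintro _ ⟨r, hr, rfl⟩ hr'
    rw [← map_inv₀, mem_subring_map_iff] at hr'
    rw [← map_inv₀, ← map_mul, mem_subring_map_iff]
    exact h.w_gen r hr hr'
  w_discrete := by
    rintro _ ⟨r, hr, rfl⟩ hr0
    have hr0' : r ≠ 0 := fun h0 => hr0 (by rw [h0, map_zero])
    obtain ⟨n, hn1, hn2⟩ := h.w_discrete r hr hr0'
    refine ⟨n, ?_, ?_⟩
    · rw [← map_inv₀, ← map_pow, ← map_mul, mem_subring_map_iff]
      exact hn1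
    · rw [← map_inv₀, ← map_pow, ← map_mul, ← map_inv₀, mem_subring_map_iff]
      exact hn2
  E_le_F0 := by
    rintro _ ⟨e, he, rfl⟩
    exact ⟨e, h.E_le_F he, rfl⟩
  x_mem_F0 := ⟨x, h.x_mem, rfl⟩
  x_transcendental := baseModel_transcendental_map588 h
  R_le_V := by
    rintro _ ⟨r, hr, rfl⟩
    exact hV ⟨r, h.R_le_V hr, rfl⟩
  x_mem_V := hV ⟨x, h.x_mem_V, rfl⟩
  V_total_F0 := by
    rintro _ ⟨f, hf, rfl⟩
    rcases h.V_total f hf with h1 | h1
    · exact Or.inl (hV ⟨f, h1, rfl⟩)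
    · exact Or.inr (hV ⟨f⁻¹, h1, map_inv₀ ι f⟩)
  gauss := by
    intro P hP ⟨i, hi0, hi⟩
    have hlift : P ∈ Polynomial.lifts ι := by
      rw [Polynomial.lifts_iff_coeff_lifts]
      intro n
      obtain ⟨a, _, ha⟩ := hP n
      exact ⟨a, ha⟩
    obtain ⟨Q, rfl⟩ := (Polynomial.mem_lifts _).mp hlift
    have hQ : ∀ n, Q.coeff n ∈ R := by
      intro n
      have := hP n
      rw [coeff_map] at this
      exact (mem_subring_map_iff ι).mp this
    have hQi : Q.coeff i ≠ 0 ∧ (Q.coeff i)⁻¹ ∈ R := by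
      rw [coeff_map] at hi0 hi
      refine ⟨fun h0 => hi0 (by rw [h0, map_zero]), ?_⟩
      rw [← map_inv₀] at hi
      exact (mem_subring_map_iff ι).mp hi
    have h1 := h.gauss Q hQ ⟨i, hQi⟩
    have h2 : eval₂ ι (ι x) Q = ι (eval x Q) := by
      have := Polynomial.hom_eval₂ Q (RingHom.id Ω) ι x
      rw [RingHom.comp_id, eval₂_id] at this
      exact this.symm
    rw [eval_map, h2, ← map_inv₀]
    exact hV ⟨_, h1, rfl⟩
  qep0 := baseModel_qep_map588 h hV hw h.qep_fin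
  qep0_inf := by
    have := baseModel_qep_map588 h hV hw h.qep_inf
    rwa [map_inv₀] at this

end IgusaBase

end Fermat.Agent.S48.H588
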